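/-
S16, UPPER (helper37): the subring of power series over `ℂ` with coefficients in a subring `V`.
-/
import Mathlib

set_option autoImplicit false

namespace Fermat.Agent.S16.H37

open PowerSeries

/-- Power series all of whose coefficients lie in the subring `V`. -/
def coeffRing (V : Subring ℂ) : Subring (PowerSeries ℂ) where
  carrier := {f | ∀ n, coeff n f ∈ V}
  mul_mem' := by
    intro f g hf hg n
    rw [coeff_mul]
    exact Subring.sum_mem _ fun x _ => V.mul_mem (hf _) (hg _)
  one_mem' := by
    intro n
    rw [coeff_one]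
    split_ifs
    · exact V.one_mem
    · exact V.zero_mem
  add_mem' := by
    intro f g hf hg n
    rw [map_add]
    exact V.add_mem (hf n) (hg n)
  zero_mem' := by
    intro n
    rw [map_zero]
    exact V.zero_mem
  neg_mem' := by
    intro f hf n
    rw [map_neg]
    exact V.neg_mem (hf n)

variable {V : Subring ℂ}

theorem mem_coeffRing {f : PowerSeries ℂ} : f ∈ coeffRing V ↔ ∀ n, coeff n f ∈ V := Iff.rfl

theorem C_mem_coeffRing {a : ℂ} (ha : a ∈ V) : C a ∈ coeffRing V := by
  intro n
  rw [coeff_C]
  split_ifs
  · exact ha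
  · exact V.zero_mem

theorem X_mem_coeffRing : (X : PowerSeries ℂ) ∈ coeffRing V := by
  intro n
  rw [coeff_X]
  split_ifs
  · exact V.one_mem
  · exact V.zero_mem

theorem expand_mem_coeffRing (p : ℕ) (hp : p ≠ 0) {f : PowerSeries ℂ} (hf : f ∈ coeffRing V) :
    expand p hp f ∈ coeffRing V := by
  intro n
  rw [coeff_expand]
  split_ifs
  · exact hf _
  · exact V.zero_mem

theorem rescale_mem_coeffRing {a : ℂ} (ha : a ∈ V) {f : PowerSeries ℂ} (hf : f ∈ coeffRing V) :
    rescale a f ∈ coeffRing V := by
  intro n
  rw [coeff_rescale]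
  exact V.mul_mem (V.pow_mem ha n) (hf n)

/-- Integral power series have coefficients in every subring. -/
theorem map_intCast_mem_coeffRing (f : PowerSeries ℤ) :
    f.map (Int.castRingHom ℂ) ∈ coeffRing V := by
  intro n
  rw [coeff_map, eq_intCast]
  exact intCast_mem V _

end Fermat.Agent.S16.H37
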