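/-
S16, UPPER, package U-N4 / N3 (helper37), part 3: no weight-2 form on `Γ₀(p)` is `1` modulo `9`
when `9 ∣ p + 1`, resp. `1` modulo `8` when `8 ∣ p + 1` (coefficients in a valuation subring of `ℂ`
in which `3`, resp. `2`, is not invertible), given the norm–Sturm engine.

`Ψ = (G² - E₄)/3` (weight 4), resp. `Ψ = (G⁴ - 6G²E₄ + 8GE₆ - 3E₄²)/256 = 27 b₈(G)` (weight 8):
every coset translate of `Ψ` is `-80 σ₃(t^p) + 3(…)`, resp. `-27 Δ(t^p) + 2(…)`.
-/
import Fermat.Agent.S16.H37.Forms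
import Fermat.Agent.S16.H37.CoeffRing
import Fermat.Agent.S22.H45.DeltaInt

set_option autoImplicit false

noncomputable section

open UpperHalfPlane ModularForm CongruenceSubgroup Matrix.SpecialLinearGroup EisensteinSeries
open scoped MatrixGroups ModularForm Manifold

namespace Fermat.Agent.S16.H37

open Fermat.Agent.S20 Fermat.Agent.S22 Fermat.Agent.S22.H45

/-- The statement of the norm–Sturm engine (`norm_sturm` of the UPPER skeleton): a form `Ψ` of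
weight `w < 12` on `Γ₀(p)` cannot have all its coset translates with period-`p` expansions in `A⟦t⟧`
that lie in the prime ideal `P` below `t ^ p` and not in `P` at `t ^ p`. -/
def NormSturm (p : ℕ) : Prop :=
  ∀ (w : ℕ), w < 12 → ∀ (Ψ : ModularForm (Γ0 p) (w : ℤ)) (A : Subring ℂ) (P : Ideal A), P.IsPrime →
    (∀ c : X p, ∃ Q : PowerSeries A, qExpansion (p : ℝ) (cosetFun Ψ c) = Q.map A.subtype ∧
      (∀ n < p, PowerSeries.coeff n Q ∈ P) ∧ PowerSeries.coeff p Q ∉ P) → False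

/-- The engine applied to translates of the shape `u T(t^p) + ℓ R`, `T = q + …`, `ℓ ∈ P`, `u ∉ P`. -/
theorem false_of_qExpansion_eq (p : ℕ) (hp : p ≠ 0) (hNS : NormSturm p) (w : ℕ) (hw : w < 12)
    (Ψ : ModularForm (Γ0 p) (w : ℤ)) (A : Subring ℂ) (P : Ideal A) (hP : P.IsPrime)
    (u ℓ : ℤ) (hℓ : (ℓ : A) ∈ P) (hu : (u : A) ∉ P)
    (T : PowerSeries ℂ) (hTA : T ∈ coeffRing A) (hT0 : PowerSeries.coeff 0 T = 0)
    (hT1 : PowerSeries.coeff 1 T = 1)
    (h : ∀ c : X p, ∃ R ∈ coeffRing A,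
      qExpansion (p : ℝ) (cosetFun Ψ c) =
        PowerSeries.C (u : ℂ) * PowerSeries.expand p hp T + PowerSeries.C (ℓ : ℂ) * R) : False := by
  refine hNS w hw Ψ A P hP fun c => ?_
  obtain ⟨R, hR, hq⟩ := h c
  have hp0 : 0 < p := Nat.pos_of_ne_zero hp
  let tq : ℕ → A := fun n => if p ∣ n then ⟨PowerSeries.coeff (n / p) T, hTA _⟩ else 0
  have htq : ∀ n, ((tq n : A) : ℂ) = if p ∣ n then PowerSeries.coeff (n / p) T else 0 := by
    intro n
    simp only [tq]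
    split_ifs <;> rfl
  have htq0 : ∀ n, n < p → tq n = 0 := by
    intro n hn
    apply Subtype.ext
    rw [htq]
    split_ifs with hd
    · have : n = 0 := Nat.eq_zero_of_dvd_of_lt hd hn
      subst this
      simpa using hT0
    · rfl
  have htqp : tq p = 1 := by
    apply Subtype.ext
    rw [htq, if_pos dvd_rfl, Nat.div_self hp0, hT1]
    rfl
  let r : ℕ → A := fun n => ⟨PowerSeries.coeff n R, hR n⟩
  refine ⟨PowerSeries.mk fun n => (u : A) * tq n + (ℓ : A) * r n, ?_, ?_, ?_⟩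
  · rw [hq]
    ext n
    rw [PowerSeries.coeff_map, PowerSeries.coeff_mk, map_add, PowerSeries.coeff_C_mul,
      PowerSeries.coeff_C_mul, PowerSeries.coeff_expand]
    simp only [Subring.coe_subtype, Subring.coe_add, Subring.coe_mul, Subring.coe_intCast, htq]
    rfl
  · intro n hn
    rw [PowerSeries.coeff_mk, htq0 n hn, mul_zero, zero_add]
    exact P.mul_mem_right _ hℓ
  · rw [PowerSeries.coeff_mk, htqp, mul_one]
    intro hmem
    exact hu ((Ideal.add_mem_iff_left P (P.mul_mem_right _ hℓ)).mp hmem)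

/-! ### The two polynomials -/

/-- `Φ₄ = (x² - a) / 3`. -/
def Phi4 : MvPolynomial (Fin 3) ℂ :=
  MvPolynomial.C (1 / 3) * (MvPolynomial.X 0 ^ 2 - MvPolynomial.X 1)

theorem aeval_Phi4 {R : Type*} [CommRing R] [Algebra ℂ R] (x a b : R) :
    MvPolynomial.aeval ![x, a, b] Phi4 = algebraMap ℂ R (1 / 3) * (x ^ 2 - a) := by
  simp [Phi4]

theorem Phi4_isobaric (d x a b : ℂ) :
    MvPolynomial.aeval ![d ^ 2 * x, d ^ 4 * a, d ^ 6 * b] Phi4 =
      d ^ 4 * MvPolynomial.aeval ![x, a, b] Phi4 := by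
  rw [aeval_Phi4, aeval_Phi4]
  simp only [Algebra.algebraMap_self, RingHom.id_apply]
  ring

/-- `Φ₈ = (x⁴ - 6x²a + 8xb - 3a²) / 256`. -/
def Phi8 : MvPolynomial (Fin 3) ℂ :=
  MvPolynomial.C (1 / 256) * (MvPolynomial.X 0 ^ 4 - 6 * MvPolynomial.X 0 ^ 2 * MvPolynomial.X 1 +
    8 * MvPolynomial.X 0 * MvPolynomial.X 2 - 3 * MvPolynomial.X 1 ^ 2)

theorem aeval_Phi8 {R : Type*} [CommRing R] [Algebra ℂ R] (x a b : R) :
    MvPolynomial.aeval ![x, a, b] Phi8 =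
      algebraMap ℂ R (1 / 256) * (x ^ 4 - 6 * x ^ 2 * a + 8 * x * b - 3 * a ^ 2) := by
  simp [Phi8]

theorem Phi8_isobaric (d x a b : ℂ) :
    MvPolynomial.aeval ![d ^ 2 * x, d ^ 4 * a, d ^ 6 * b] Phi8 =
      d ^ 8 * MvPolynomial.aeval ![x, a, b] Phi8 := by
  rw [aeval_Phi8, aeval_Phi8]
  simp only [Algebra.algebraMap_self, RingHom.id_apply]
  ring

/-- The formal `b₈`-identity for `x = 1 + 8h`: `Φ₈·256 = 256 (-27 Δ + 2ρ)`. -/
theorem phi8_one_add {R : Type*} [CommRing R] (h s e D : R)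
    (hD : 1728 * D = (1 + 240 * s) ^ 3 - (1 - 504 * (s + 24 * e)) ^ 2) :
    (1 + 8 * h) ^ 4 - 6 * (1 + 8 * h) ^ 2 * (1 + 240 * s) +
        8 * (1 + 8 * h) * (1 - 504 * (s + 24 * e)) - 3 * (1 + 240 * s) ^ 2 =
      256 * (-27 * D + 2 * (8 * h ^ 4 + 4 * h ^ 3 - 180 * h ^ 2 * s - 108 * h * s - 1512 * h * e
        - 972 * s ^ 2 + 108000 * s ^ 3 - 95256 * s * e - 1143072 * e ^ 2)) := by
  linear_combination 4 * hD

/-! ### The integral series -/

theorem twentyfour_dvd_pow (d : ℤ) : (24 : ℤ) ∣ d ^ 5 - d ^ 3 := by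
  have h : ∀ x : ZMod 24, x ^ 5 - x ^ 3 = 0 := by decide
  have h1 := h (d : ZMod 24)
  have h2 : (((d ^ 5 - d ^ 3 : ℤ) : ZMod 24) = 0) := by
    push_cast
    exact h1
  have h3 := (ZMod.intCast_zmod_eq_zero_iff_dvd _ 24).mp h2
  exact_mod_cast h3

theorem twentyfour_dvd_sigma (n : ℕ) :
    (24 : ℤ) ∣ (ArithmeticFunction.sigma 5 n : ℤ) - (ArithmeticFunction.sigma 3 n : ℤ) := by
  simp only [ArithmeticFunction.sigma_apply]
  push_cast
  rw [← Finset.sum_sub_distrib]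
  exact Finset.dvd_sum fun d _ => twentyfour_dvd_pow d

/-- The series `(σ₅ - σ₃) / 24`. -/
def eSer : PowerSeries ℤ :=
  PowerSeries.mk fun n =>
    ((ArithmeticFunction.sigma 5 n : ℤ) - (ArithmeticFunction.sigma 3 n : ℤ)) / 24

theorem eSer_spec : sigSer 5 = sigSer 3 + 24 * eSer := by
  ext n
  have h24 : (24 : PowerSeries ℤ) = PowerSeries.C (24 : ℤ) := by simp
  rw [h24]
  simp only [map_add, PowerSeries.coeff_C_mul, sigSer, eSer, PowerSeries.coeff_mk]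
  rw [Int.mul_ediv_cancel' (twentyfour_dvd_sigma n)]
  ring

theorem expand_qExpansion_E4 (p : ℕ) (hp : p ≠ 0) :
    PowerSeries.expand p hp (qExpansion 1 E₄) =
      1 + 240 * PowerSeries.expand p hp ((sigSer 3).map (Int.castRingHom ℂ)) := by
  rw [qExpansion_E4_eq]
  simp only [map_add, map_mul, map_one, map_ofNat]

theorem expand_qExpansion_E6 (p : ℕ) (hp : p ≠ 0) :
    PowerSeries.expand p hp (qExpansion 1 E₆) =
      1 - 504 * (PowerSeries.expand p hp ((sigSer 3).map (Int.castRingHom ℂ)) +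
        24 * PowerSeries.expand p hp (eSer.map (Int.castRingHom ℂ))) := by
  rw [qExpansion_E6_eq, eSer_spec]
  simp only [map_add, map_sub, map_mul, map_one, map_ofNat]

theorem expand_tauSer (p : ℕ) (hp : p ≠ 0) :
    1728 * PowerSeries.expand p hp (tauSer.map (Int.castRingHom ℂ)) =
      (1 + 240 * PowerSeries.expand p hp ((sigSer 3).map (Int.castRingHom ℂ))) ^ 3 -
      (1 - 504 * (PowerSeries.expand p hp ((sigSer 3).map (Int.castRingHom ℂ)) +
        24 * PowerSeries.expand p hp (eSer.map (Int.castRingHom ℂ)))) ^ 2 := by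
  have h := congrArg (fun f => PowerSeries.expand p hp (f.map (Int.castRingHom ℂ))) tauSer_spec
  rw [eSer_spec] at h
  simp only [map_add, map_sub, map_mul, map_pow, map_one, map_ofNat] at h
  exact h.symm

theorem coeff_zero_sigSer (k : ℕ) :
    PowerSeries.coeff 0 ((sigSer k).map (Int.castRingHom ℂ)) = 0 := by
  simp [sigSer]

theorem coeff_one_sigSer (k : ℕ) :
    PowerSeries.coeff 1 ((sigSer k).map (Int.castRingHom ℂ)) = 1 := by
  simp [sigSer]

/-! ### The two cores over a subring with a prime ideal -/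

/-- `ℓ = 3`: no `G ≡ 1 mod 9` when `-1/p ≡ 1 mod 9`. -/
theorem nog_three_core (p : ℕ) [hpp : Fact p.Prime] (hNS : NormSturm p) (A : Subring ℂ)
    (P : Ideal A) (hP : P.IsPrime) (h3 : ((3 : ℤ) : A) ∈ P) (h80 : ((-80 : ℤ) : A) ∉ P)
    (hpA : (p : ℂ)⁻¹ ∈ A) (hζ : ∀ ζ : ℂ, ζ ^ p = 1 → ζ ∈ A)
    (hp1 : ∃ a ∈ A, -(p : ℂ)⁻¹ = 1 + 9 * a)
    (G : ModularForm (Γ0 p) 2) (h0 : (qExpansion 1 G).coeff 0 = 1)
    (hG : ∀ n, 0 < n → ∃ h ∈ A, (qExpansion 1 G).coeff n = 9 * h) : False := by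
  have hp : p ≠ 0 := hpp.out.ne_zero
  have : NeZero p := ⟨hp⟩
  obtain ⟨Ψ, hΨ⟩ := exists_form_polyFamily p G 4 Phi4 Phi4_isobaric
  refine false_of_qExpansion_eq p hp hNS 4 (by norm_num) Ψ A P hP (-80) 3 h3 h80
    ((sigSer 3).map (Int.castRingHom ℂ)) (map_intCast_mem_coeffRing _) (coeff_zero_sigSer 3)
    (coeff_one_sigSer 3) fun c => ?_
  obtain ⟨H, hHA, hH⟩ := qExpansion_cosetFun_eq_one_add p A 9 hpA hζ hp1 G h0 hG c
  have hHA' : H ∈ coeffRing A := hHA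
  refine ⟨2 * H + 9 * H ^ 2, ?_, ?_⟩
  · exact Subring.add_mem _ (Subring.mul_mem _ (ofNat_mem _ 2) hHA')
      (Subring.mul_mem _ (ofNat_mem _ 9) (Subring.pow_mem _ hHA' 2))
  · rw [hΨ c, qExpansion_polyFamily, hH, aeval_Phi4, expand_qExpansion_E4]
    have h3' : PowerSeries.C (1 / 3 : ℂ) * 3 = 1 := by
      rw [← map_ofNat (PowerSeries.C (R := ℂ)) 3, ← map_mul]
      norm_num
    have hal : algebraMap ℂ (PowerSeries ℂ) (1 / 3) = PowerSeries.C (1 / 3 : ℂ) := rfl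
    rw [hal]
    simp only [Int.cast_neg, Int.cast_ofNat, map_neg, map_ofNat]
    linear_combination (6 * H + 27 * H ^ 2 -
      80 * PowerSeries.expand p hp ((sigSer 3).map (Int.castRingHom ℂ))) * h3'

/-- `ℓ = 2`: no `G ≡ 1 mod 8` when `-1/p ≡ 1 mod 8`. -/
theorem nog_two_core (p : ℕ) [hpp : Fact p.Prime] (hNS : NormSturm p) (A : Subring ℂ)
    (P : Ideal A) (hP : P.IsPrime) (h2 : ((2 : ℤ) : A) ∈ P) (h27 : ((-27 : ℤ) : A) ∉ P)
    (hpA : (p : ℂ)⁻¹ ∈ A) (hζ : ∀ ζ : ℂ, ζ ^ p = 1 → ζ ∈ A)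
    (hp1 : ∃ a ∈ A, -(p : ℂ)⁻¹ = 1 + 8 * a)
    (G : ModularForm (Γ0 p) 2) (h0 : (qExpansion 1 G).coeff 0 = 1)
    (hG : ∀ n, 0 < n → ∃ h ∈ A, (qExpansion 1 G).coeff n = 8 * h) : False := by
  have hp : p ≠ 0 := hpp.out.ne_zero
  have : NeZero p := ⟨hp⟩
  obtain ⟨Ψ, hΨ⟩ := exists_form_polyFamily p G 8 Phi8 Phi8_isobaric
  refine false_of_qExpansion_eq p hp hNS 8 (by norm_num) Ψ A P hP (-27) 2 h2 h27
    (tauSer.map (Int.castRingHom ℂ)) (map_intCast_mem_coeffRing _) ?_ ?_ fun c => ?_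
  · rw [PowerSeries.coeff_map, tauSer_coeff_zero, map_zero]
  · rw [PowerSeries.coeff_map, tauSer_coeff_one, map_one]
  obtain ⟨H, hHA, hH⟩ := qExpansion_cosetFun_eq_one_add p A 8 hpA hζ hp1 G h0 hG c
  have hHA' : H ∈ coeffRing A := hHA
  set s : PowerSeries ℂ := PowerSeries.expand p hp ((sigSer 3).map (Int.castRingHom ℂ)) with hs
  set e : PowerSeries ℂ := PowerSeries.expand p hp (eSer.map (Int.castRingHom ℂ)) with he
  set D : PowerSeries ℂ := PowerSeries.expand p hp (tauSer.map (Int.castRingHom ℂ)) with hDdef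
  have hsA : s ∈ coeffRing A := expand_mem_coeffRing p hp (map_intCast_mem_coeffRing _)
  have heA : e ∈ coeffRing A := expand_mem_coeffRing p hp (map_intCast_mem_coeffRing _)
  have hD : 1728 * D = (1 + 240 * s) ^ 3 - (1 - 504 * (s + 24 * e)) ^ 2 := expand_tauSer p hp
  refine ⟨8 * H ^ 4 + 4 * H ^ 3 - 180 * H ^ 2 * s - 108 * H * s - 1512 * H * e
        - 972 * s ^ 2 + 108000 * s ^ 3 - 95256 * s * e - 1143072 * e ^ 2, ?_, ?_⟩
  · aesop
  · rw [hΨ c, qExpansion_polyFamily, hH, aeval_Phi8, expand_qExpansion_E4, expand_qExpansion_E6]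
    have h256 : PowerSeries.C (1 / 256 : ℂ) * 256 = 1 := by
      rw [← map_ofNat (PowerSeries.C (R := ℂ)) 256, ← map_mul]
      norm_num
    have hal : algebraMap ℂ (PowerSeries ℂ) (1 / 256) = PowerSeries.C (1 / 256 : ℂ) := rfl
    rw [hal]
    simp only [Int.cast_neg, Int.cast_ofNat, map_neg, map_ofNat]
    rw [← hs, ← he, phi8_one_add H s e D hD]
    linear_combination (-27 * D + 2 * (8 * H ^ 4 + 4 * H ^ 3 - 180 * H ^ 2 * s - 108 * H * s
      - 1512 * H * e - 972 * s ^ 2 + 108000 * s ^ 3 - 95256 * s * e - 1143072 * e ^ 2)) * h256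

end Fermat.Agent.S16.H37
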