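/-
S16, UPPER, package U-N4 / N3 (helper37), part 4: the statements over a valuation subring of `ℂ`,
given the norm–Sturm engine as a hypothesis (`NormSturm p`).
-/
import Fermat.Agent.S16.H37.Nog

set_option autoImplicit false

noncomputable section

open UpperHalfPlane ModularForm CongruenceSubgroup Matrix.SpecialLinearGroup
open scoped MatrixGroups ModularForm Manifold

namespace Fermat.Agent.S16.H37

open Fermat.Agent.S20

/-- Roots of unity lie in every valuation subring. -/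
theorem root_of_unity_mem (V : ValuationSubring ℂ) {n : ℕ} (hn : n ≠ 0) {ζ : ℂ} (hζ : ζ ^ n = 1) :
    ζ ∈ V := by
  rcases V.mem_or_inv_mem ζ with h | h
  · exact h
  · obtain ⟨m, rfl⟩ := Nat.exists_eq_succ_of_ne_zero hn
    have h1 : ζ = (ζ ^ m)⁻¹ := eq_inv_of_mul_eq_one_left (by rw [← pow_succ']; exact hζ)
    rw [h1, ← inv_pow]
    exact pow_mem h m

/-- The maximal ideal of a valuation subring `V` of `ℂ` in which the integer `ℓ` is not invertible: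
it contains `ℓ`, and every integer prime to `ℓ` is a unit of `V`. -/
theorem exists_prime_ideal (V : ValuationSubring ℂ) (ℓ : ℤ) (hℓ : (ℓ : ℂ)⁻¹ ∉ V) :
    ∃ P : Ideal V.toSubring, P.IsPrime ∧ ((ℓ : ℤ) : V.toSubring) ∈ P ∧
      ∀ u : ℤ, IsCoprime u ℓ → ((u : ℤ) : V.toSubring) ∉ P ∧ (u : ℂ)⁻¹ ∈ V.toSubring := by
  have hloc : IsLocalRing V.toSubring := inferInstanceAs (IsLocalRing V)
  have hinv : ∀ u : ℤ, IsUnit ((u : ℤ) : V.toSubring) → (u : ℂ)⁻¹ ∈ V.toSubring := by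
    intro u hu
    obtain ⟨b, hb⟩ := hu.exists_right_inv
    have h1 : (u : ℂ) * (b : ℂ) = 1 := by
      have := congrArg (Subtype.val : V.toSubring → ℂ) hb
      simpa using this
    have h2 : (u : ℂ)⁻¹ = b := (eq_inv_of_mul_eq_one_right h1).symm
    rw [h2]
    exact b.2
  have hmem : ((ℓ : ℤ) : V.toSubring) ∈ IsLocalRing.maximalIdeal V.toSubring := by
    rw [IsLocalRing.mem_maximalIdeal, mem_nonunits_iff]
    exact fun hu => hℓ (hinv ℓ hu)
  refine ⟨IsLocalRing.maximalIdeal V.toSubring, Ideal.IsMaximal.isPrime' _, hmem, ?_⟩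
  intro u hcop
  have hu : ((u : ℤ) : V.toSubring) ∉ IsLocalRing.maximalIdeal V.toSubring := by
    intro hmu
    obtain ⟨x, y, hxy⟩ := hcop
    have h1 : ((x : ℤ) : V.toSubring) * u + ((y : ℤ) : V.toSubring) * ℓ = 1 := by
      exact_mod_cast congrArg (Int.cast : ℤ → V.toSubring) hxy
    have h2 : (1 : V.toSubring) ∈ IsLocalRing.maximalIdeal V.toSubring := by
      rw [← h1]
      exact Ideal.add_mem _ (Ideal.mul_mem_left _ _ hmu) (Ideal.mul_mem_left _ _ hmem)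
    exact (Ideal.ne_top_iff_one _).mp (Ideal.IsMaximal.ne_top inferInstance) h2
  exact ⟨hu, hinv u (IsLocalRing.notMem_maximalIdeal.mp hu)⟩

/-- **N3** (given the engine): if `9 ∣ p + 1`, no `G ∈ M_2(Γ₀(p))` has `a_0 = 1` and `a_n ∈ 9V`
(`n ≥ 1`) for a valuation subring `V` of `ℂ` in which `3` is not invertible. -/
theorem nog_three_of (p : ℕ) [hpp : Fact p.Prime] (hNS : NormSturm p) (h9 : 9 ∣ p + 1)
    (V : ValuationSubring ℂ) (hV : (3 : ℂ) ∈ V ∧ (3 : ℂ)⁻¹ ∉ V) (G : ModularForm (Γ0 p) 2)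
    (h0 : (qExpansion 1 G).coeff 0 = 1)
    (hG : ∀ n, 0 < n → ∃ h ∈ V, (qExpansion 1 G).coeff n = 9 * h) : False := by
  obtain ⟨k, hk⟩ := h9
  have hℓ : (((3 : ℤ) : ℂ))⁻¹ ∉ V := by simpa using hV.2
  obtain ⟨P, hP, h3, hcop⟩ := exists_prime_ideal V 3 hℓ
  have hpcop : IsCoprime (p : ℤ) 3 := ⟨-1, 3 * k, by
    have : ((p : ℤ) + 1) = 9 * k := by exact_mod_cast hk
    linarith⟩
  have h80 : IsCoprime (-80 : ℤ) 3 := ⟨1, 27, by norm_num⟩
  have hpV : (p : ℂ)⁻¹ ∈ V.toSubring := by simpa using (hcop p hpcop).2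
  have hp' : (p : ℂ) ≠ 0 := by exact_mod_cast hpp.out.ne_zero
  have hk' : (p : ℂ) + 1 = 9 * k := by exact_mod_cast hk
  refine nog_three_core p hNS V.toSubring P hP h3 (hcop _ h80).1 hpV
    (fun ζ hζ => root_of_unity_mem V hpp.out.ne_zero hζ) ⟨-(k : ℂ) * (p : ℂ)⁻¹, ?_, ?_⟩ G h0
    (fun n hn => let ⟨h, hh, he⟩ := hG n hn; ⟨h, hh, he⟩)
  · exact Subring.mul_mem _ (Subring.neg_mem _ (natCast_mem _ k)) hpV
  · field_simp
    linear_combination (-1 : ℂ) * hk'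

/-- **N4** (given the engine): if `8 ∣ p + 1`, no `G ∈ M_2(Γ₀(p))` has `a_0 = 1` and `a_n ∈ 8V`
(`n ≥ 1`) for a valuation subring `V` of `ℂ` in which `2` is not invertible. -/
theorem nog_two_of (p : ℕ) [hpp : Fact p.Prime] (hNS : NormSturm p) (h8 : 8 ∣ p + 1)
    (V : ValuationSubring ℂ) (hV : (2 : ℂ) ∈ V ∧ (2 : ℂ)⁻¹ ∉ V) (G : ModularForm (Γ0 p) 2)
    (h0 : (qExpansion 1 G).coeff 0 = 1)
    (hG : ∀ n, 0 < n → ∃ h ∈ V, (qExpansion 1 G).coeff n = 8 * h) : False := by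
  obtain ⟨k, hk⟩ := h8
  have hℓ : (((2 : ℤ) : ℂ))⁻¹ ∉ V := by simpa using hV.2
  obtain ⟨P, hP, h2, hcop⟩ := exists_prime_ideal V 2 hℓ
  have hpcop : IsCoprime (p : ℤ) 2 := ⟨-1, 4 * k, by
    have : ((p : ℤ) + 1) = 8 * k := by exact_mod_cast hk
    linarith⟩
  have h27 : IsCoprime (-27 : ℤ) 2 := ⟨1, 14, by norm_num⟩
  have hpV : (p : ℂ)⁻¹ ∈ V.toSubring := by simpa using (hcop p hpcop).2
  have hp' : (p : ℂ) ≠ 0 := by exact_mod_cast hpp.out.ne_zero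
  have hk' : (p : ℂ) + 1 = 8 * k := by exact_mod_cast hk
  refine nog_two_core p hNS V.toSubring P hP h2 (hcop _ h27).1 hpV
    (fun ζ hζ => root_of_unity_mem V hpp.out.ne_zero hζ) ⟨-(k : ℂ) * (p : ℂ)⁻¹, ?_, ?_⟩ G h0
    (fun n hn => let ⟨h, hh, he⟩ := hG n hn; ⟨h, hh, he⟩)
  · exact Subring.mul_mem _ (Subring.neg_mem _ (natCast_mem _ k)) hpV
  · field_simp
    linear_combination (-1 : ℂ) * hk'

end Fermat.Agent.S16.H37
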