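/-
S16, UPPER, package U-N4 / N3 (helper37), final statements NOG (b) and NOG (c):
no `G ∈ M_2(Γ₀(p))` is `1` modulo `9` when `9 ∣ p + 1`, resp. `1` modulo `8` when `8 ∣ p + 1`
(coefficients in a valuation subring of `ℂ` in which `3`, resp. `2`, is not invertible).
-/
import Fermat.Agent.S16.H37.NogVal
import Fermat.Agent.S16.H88.NormSturm

set_option autoImplicit false

noncomputable section

open UpperHalfPlane ModularForm CongruenceSubgroup Matrix.SpecialLinearGroup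
open scoped MatrixGroups ModularForm Manifold

namespace Fermat.Agent.S16.H37

open Fermat.Agent.S20

/-- The norm–Sturm engine (landed by helper88). -/
theorem normSturm (p : ℕ) [Fact p.Prime] : NormSturm p :=
  fun _ hw Ψ A P hP h => Fermat.Agent.S16.H88.norm_sturm p hw Ψ A P hP h

/-- **NOG (b)**: if `9 ∣ p + 1`, no `G ∈ M_2(Γ₀(p))` has `a_0 = 1` and `a_n ∈ 9V` for `n ≥ 1`,
`V` a valuation subring of `ℂ` in which `3` is not invertible. -/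
theorem nog_three (p : ℕ) [Fact p.Prime] (h9 : 9 ∣ p + 1) (V : ValuationSubring ℂ)
    (hV : (3 : ℂ) ∈ V ∧ (3 : ℂ)⁻¹ ∉ V) (G : ModularForm (Γ0 p) 2)
    (h0 : (qExpansion 1 G).coeff 0 = 1)
    (hG : ∀ n, 0 < n → ∃ h ∈ V, (qExpansion 1 G).coeff n = 9 * h) : False :=
  nog_three_of p (normSturm p) h9 V hV G h0 hG

/-- **NOG (c)**: if `8 ∣ p + 1`, no `G ∈ M_2(Γ₀(p))` has `a_0 = 1` and `a_n ∈ 8V` for `n ≥ 1`,
`V` a valuation subring of `ℂ` in which `2` is not invertible. -/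
theorem nog_two (p : ℕ) [Fact p.Prime] (h8 : 8 ∣ p + 1) (V : ValuationSubring ℂ)
    (hV : (2 : ℂ) ∈ V ∧ (2 : ℂ)⁻¹ ∉ V) (G : ModularForm (Γ0 p) 2)
    (h0 : (qExpansion 1 G).coeff 0 = 1)
    (hG : ∀ n, 0 < n → ∃ h ∈ V, (qExpansion 1 G).coeff n = 8 * h) : False :=
  nog_two_of p (normSturm p) h8 V hV G h0 hG

/-- NOG (b) in the shape consumed by `H63.upper_of` (`hB`). -/
theorem nog_three' (p : ℕ) [Fact p.Prime] : 9 ∣ p + 1 → ∀ V : ValuationSubring ℂ,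
    ((3 : ℂ) ∈ V ∧ (3 : ℂ)⁻¹ ∉ V) → ∀ G : ModularForm (Gamma0 p) 2,
    (qExpansion 1 G).coeff 0 = 1 →
    (∀ n : ℕ, 0 < n → ∃ h ∈ V, (qExpansion 1 G).coeff n = 9 * h) → False :=
  fun h9 V hV G h0 hG => nog_three p h9 V hV G h0 hG

/-- NOG (c) in the shape consumed by `H63.upper_of` (`hC`). -/
theorem nog_two' (p : ℕ) [Fact p.Prime] : 8 ∣ p + 1 → ∀ V : ValuationSubring ℂ,
    ((2 : ℂ) ∈ V ∧ (2 : ℂ)⁻¹ ∉ V) → ∀ G : ModularForm (Gamma0 p) 2,
    (qExpansion 1 G).coeff 0 = 1 →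
    (∀ n : ℕ, 0 < n → ∃ h ∈ V, (qExpansion 1 G).coeff n = 8 * h) → False :=
  fun h8 V hV G h0 hG => nog_two p h8 V hV G h0 hG

end Fermat.Agent.S16.H37
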