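/-
S16, UPPER, package U-N4 / N3 (helper37), part 1: period-`p` expansions of the coset translates of a
weight-2 form `G` on `Γ₀(p)` whose `q`-expansion is `1` modulo `μ`, when `-1/p` is `1` modulo `μ`.

Everything is expressed over a subring `A` of `ℂ`; all translates are `1 + μ * H` with `H ∈ A⟦t⟧`.
-/
import Fermat.Agent.S20.Basic
import Fermat.Agent.S16.H20.W2
import Fermat.Agent.S28.H22.Translates
import Fermat.Prelude.Thm_UpperHalfPlane_qExpansion_coeff_nat_mul

set_option autoImplicit false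

noncomputable section

open UpperHalfPlane ModularForm CongruenceSubgroup Matrix.SpecialLinearGroup
open scoped MatrixGroups ModularForm Manifold

namespace Fermat.Agent.S16.H37

open Fermat.Agent.S20 Fermat.Agent.S22 Fermat.Agent.S28.H22

/-- Every coset translate of a modular form on `Γ₀(p)` is nice at period `p`. -/
theorem isNice_cosetFun (p : ℕ) [NeZero p] {k : ℤ} (G : ModularForm (Γ0 p) k) (c : X p) :
    IsNice p (cosetFun G c) := by
  refine ⟨?_, mdifferentiable_cosetFun G c, isBoundedAtImInfty_cosetFun G c⟩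
  have h := cosetFun_periodic G c
  simpa using h

/-- The period-`p` expansion of a nice function of period `1`. -/
theorem qExpansion_natCast_coeff {p : ℕ} (hp : 0 < p) {F : ℍ → ℂ} (hF : IsNice 1 F) (n : ℕ) :
    (qExpansion (p : ℝ) F).coeff n = if p ∣ n then (qExpansion 1 F).coeff (n / p) else 0 := by
  have hper : Function.Periodic (F ∘ ofComplex) ((1 : ℝ) : ℂ) := by simpa using hF.per
  have h := UpperHalfPlane.qExpansion_coeff_nat_mul one_pos hper hF.holo hF.bdd hp n
  simpa using h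

/-- The period-`p` expansion of a nice function of period `1` is the expansion at period `1` with
`X` replaced by `X ^ p`. -/
theorem qExpansion_natCast_eq_expand {p : ℕ} (hp : p ≠ 0) {F : ℍ → ℂ} (hF : IsNice 1 F) :
    qExpansion (p : ℝ) F = PowerSeries.expand p hp (qExpansion 1 F) := by
  ext n
  rw [qExpansion_natCast_coeff (Nat.pos_of_ne_zero hp) hF, PowerSeries.coeff_expand]

theorem zetaBD_pow_self (j : ℕ) {p : ℕ} (hp : p ≠ 0) : zetaBD (j : ℤ) p ^ p = 1 := by
  have hp' : (p : ℂ) ≠ 0 := by exact_mod_cast hp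
  unfold zetaBD
  rw [← Complex.exp_nat_mul]
  have : (p : ℂ) * (2 * (Real.pi : ℂ) * Complex.I * ((j : ℤ) : ℂ) / (p : ℂ)) =
      (j : ℕ) * (2 * (Real.pi : ℂ) * Complex.I) := by
    field_simp
    push_cast
    ring
  rw [this]
  exact Complex.exp_nat_mul_two_pi_mul_I j

/-- **Translates.** Let `G ∈ M_2(Γ₀(p))` have `a_0 = 1` and `a_n ∈ μ A` for `n ≥ 1`, where `A` is a
subring of `ℂ` containing `1/p`, the `p`-th roots of unity, and such that `-1/p ∈ 1 + μ A`.
Then the period-`p` expansion of every coset translate of `G` is `1 + μ H` with `H ∈ A⟦t⟧`. -/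
theorem qExpansion_cosetFun_eq_one_add (p : ℕ) [hpp : Fact p.Prime] (A : Subring ℂ) (μ : ℂ)
    (hpA : (p : ℂ)⁻¹ ∈ A) (hζ : ∀ ζ : ℂ, ζ ^ p = 1 → ζ ∈ A)
    (hp1 : ∃ a ∈ A, -(p : ℂ)⁻¹ = 1 + μ * a)
    (G : ModularForm (Γ0 p) 2) (h0 : (qExpansion 1 G).coeff 0 = 1)
    (hG : ∀ n, 0 < n → ∃ h ∈ A, (qExpansion 1 G).coeff n = μ * h) (c : X p) :
    ∃ H : PowerSeries ℂ, (∀ n, PowerSeries.coeff n H ∈ A) ∧
      qExpansion (p : ℝ) (cosetFun G c) = 1 + PowerSeries.C μ * H := by
  have hp : p ≠ 0 := hpp.out.ne_zero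
  have hp0 : 0 < p := hpp.out.pos
  have hG' : ∀ n : ℕ, ∃ h ∈ A, 0 < n → (qExpansion 1 G).coeff n = μ * h := by
    intro n
    rcases Nat.eq_zero_or_pos n with rfl | hn
    · exact ⟨0, A.zero_mem, fun h => absurd h (lt_irrefl 0)⟩
    · obtain ⟨h, hA, he⟩ := hG n hn
      exact ⟨h, hA, fun _ => he⟩
  choose h hhA hh using hG'
  obtain ⟨a, haA, ha⟩ := hp1
  rcases Fermat.Agent.S16.H20.cosetFun_cases p G c with hc | ⟨j, -, hc⟩
  · -- the translate at `∞`
    refine ⟨PowerSeries.mk fun n => if p ∣ n ∧ 0 < n then h (n / p) else 0, fun n => ?_, ?_⟩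
    · rw [PowerSeries.coeff_mk]
      split_ifs
      · exact hhA _
      · exact A.zero_mem
    · rw [hc]
      ext n
      rw [qExpansion_natCast_coeff hp0 (Fermat.Agent.S16.H20.isNice_coe 1 G), map_add,
        PowerSeries.coeff_C_mul, PowerSeries.coeff_mk, PowerSeries.coeff_one]
      rcases Nat.eq_zero_or_pos n with rfl | hn
      · simp [h0]
      · by_cases hpn : p ∣ n
        · have hpos : 0 < n / p := Nat.div_pos (Nat.le_of_dvd hn hpn) hp0
          rw [if_pos hpn, if_neg hn.ne', if_pos ⟨hpn, hn⟩, hh _ hpos, zero_add]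
        · rw [if_neg hpn, if_neg hn.ne', if_neg (fun h' => hpn h'.1), mul_zero, zero_add]
  · -- the translates at `0`
    set ζ : ℂ := zetaBD (j : ℤ) p with hζdef
    have hζA : ζ ∈ A := hζ ζ (zetaBD_pow_self j hp)
    have hnice : IsNice p ((heckeU 2 p G) ∣[(2 : ℤ)] heckeMatrix p j) :=
      isNice_slash_heckeMatrix (Fermat.Agent.S16.H20.isNice_heckeU 1 G) 2 hp j
    have : NeZero p := ⟨hp⟩
    refine ⟨PowerSeries.mk fun n => if n = 0 then a else -((p : ℂ)⁻¹ * h (n * p) * ζ ^ n),
      fun n => ?_, ?_⟩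
    · rw [PowerSeries.coeff_mk]
      split_ifs
      · exact haA
      · exact A.neg_mem (A.mul_mem (A.mul_mem hpA (hhA _)) (A.pow_mem hζA n))
    · rw [hc, qExpansion_neg hnice.analyticAt]
      ext n
      rw [map_neg, qExpansion_slash_heckeMatrix_coeff (Fermat.Agent.S16.H20.isNice_heckeU 1 G) 2 hp,
        Fermat.Agent.S16.H20.qExpansion_heckeU_coeff p hp G, map_add, PowerSeries.coeff_C_mul,
        PowerSeries.coeff_mk, PowerSeries.coeff_one]
      rcases Nat.eq_zero_or_pos n with rfl | hn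
      · simp only [zero_mul, h0, mul_one, pow_zero, if_true]
        exact ha
      · rw [if_neg hn.ne', if_neg hn.ne', hh _ (Nat.mul_pos hn hp0), zero_add]
        ring

end Fermat.Agent.S16.H37
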