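/-
S16, UPPER, package U-N4 / N3 (helper37), part 2: for `G ∈ M_2(Γ₀(p))` and a polynomial `Φ(x, a, b)`
that is isobaric of weight `w` for the weights `(2, 4, 6)`, the function `Φ(G, E₄, E₆)` is a modular
form of weight `w` on `Γ₀(p)`; its coset translates are `Φ(translate of G, E₄, E₆)` and their
period-`p` expansions are `Φ` of the period-`p` expansions.
-/
import Fermat.Agent.S16.H37.Transl

set_option autoImplicit false

noncomputable section

open UpperHalfPlane ModularForm CongruenceSubgroup Matrix.SpecialLinearGroup EisensteinSeries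
open scoped MatrixGroups ModularForm Manifold

namespace Fermat.Agent.S16.H37

open Fermat.Agent.S20 Fermat.Agent.S22 Fermat.Agent.S28.H22

/-- A level-one modular form is nice at every period. -/
theorem isNice_levelOne (N : ℕ) {k : ℤ} (r : ModularForm 𝒮ℒ k) : IsNice N (r : ℍ → ℂ) :=
  IsNice.of_one N (SlashInvariantFormClass.periodic_comp_ofComplex r one_mem_strictPeriods_SL)
    (ModularFormClass.holo r) (ModularFormClass.bdd_at_infty r)

/-- The transformation law of a level-one form. -/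
theorem levelOne_smul_apply {m : ℤ} (r : ModularForm 𝒮ℒ m) (g : SL(2, ℤ)) (τ : ℍ) :
    r (g • τ) = denom g τ ^ m * r τ := by
  have h := congrFun (H47.levelOne_slash r g) τ
  rw [SL_slash_apply] at h
  have hd : denom g τ ≠ 0 := denom_ne_zero g τ
  rw [← h, zpow_neg, mul_comm (denom g τ ^ m), mul_assoc, inv_mul_cancel₀ (zpow_ne_zero _ hd),
    mul_one]

theorem vec3_comp {α β : Type*} (f : α → β) (x y z : α) :
    (fun i : Fin 3 => f (![x, y, z] i)) = ![f x, f y, f z] := by
  funext i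
  fin_cases i <;> rfl

/-- The triple of nice functions `(translate of G, E₄, E₆)`. -/
def niceVec (p : ℕ) [NeZero p] (G : ModularForm (Γ0 p) 2) (c : X p) : Fin 3 → niceAlg p :=
  ![⟨cosetFun G c, isNice_cosetFun p G c⟩, ⟨E₄, isNice_levelOne p E₄⟩, ⟨E₆, isNice_levelOne p E₆⟩]

/-- The family of functions `Φ(translate of G, E₄, E₆)`. -/
def polyFamily (p : ℕ) [NeZero p] (G : ModularForm (Γ0 p) 2) (Φ : MvPolynomial (Fin 3) ℂ) (c : X p) :
    ℍ → ℂ :=
  ((MvPolynomial.aeval (niceVec p G c) Φ : niceAlg p) : ℍ → ℂ)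

theorem isNice_polyFamily (p : ℕ) [NeZero p] (G : ModularForm (Γ0 p) 2)
    (Φ : MvPolynomial (Fin 3) ℂ) (c : X p) : IsNice p (polyFamily p G Φ c) :=
  (MvPolynomial.aeval (niceVec p G c) Φ : niceAlg p).2

theorem polyFamily_apply (p : ℕ) [NeZero p] (G : ModularForm (Γ0 p) 2)
    (Φ : MvPolynomial (Fin 3) ℂ) (c : X p) (τ : ℍ) :
    polyFamily p G Φ c τ = MvPolynomial.aeval ![cosetFun G c τ, E₄ τ, E₆ τ] Φ := by
  have h1 := AlgHom.congr_fun (MvPolynomial.comp_aeval (niceVec p G c)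
    ((Pi.evalAlgHom ℂ (fun _ : ℍ => ℂ) τ).comp (niceAlg p).val)) Φ
  have h2 : (fun i : Fin 3 => ((Pi.evalAlgHom ℂ (fun _ : ℍ => ℂ) τ).comp (niceAlg p).val)
      (niceVec p G c i)) = ![cosetFun G c τ, E₄ τ, E₆ τ] := by
    unfold niceVec
    rw [vec3_comp]
    rfl
  rw [h2] at h1
  rw [← h1]
  rfl

theorem qExpansion_polyFamily (p : ℕ) [NeZero p] (G : ModularForm (Γ0 p) 2)
    (Φ : MvPolynomial (Fin 3) ℂ) (c : X p) :
    qExpansion (p : ℝ) (polyFamily p G Φ c) =
      MvPolynomial.aeval ![qExpansion (p : ℝ) (cosetFun G c),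
        PowerSeries.expand p (NeZero.ne p) (qExpansion 1 E₄),
        PowerSeries.expand p (NeZero.ne p) (qExpansion 1 E₆)] Φ := by
  have h1 := AlgHom.congr_fun (MvPolynomial.comp_aeval (niceVec p G c) (qExpHom p)) Φ
  have h2 : (fun i : Fin 3 => (qExpHom p) (niceVec p G c i)) =
      ![qExpansion (p : ℝ) (cosetFun G c),
        PowerSeries.expand p (NeZero.ne p) (qExpansion 1 E₄),
        PowerSeries.expand p (NeZero.ne p) (qExpansion 1 E₆)] := by
    unfold niceVec
    rw [vec3_comp]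
    simp only [qExpHom_apply]
    rw [qExpansion_natCast_eq_expand (NeZero.ne p) (isNice_levelOne 1 E₄),
      qExpansion_natCast_eq_expand (NeZero.ne p) (isNice_levelOne 1 E₆)]
  rw [h2] at h1
  rw [← h1]
  rfl

/-- **Forms.** If `Φ(d² x, d⁴ a, d⁶ b) = d ^ w Φ(x, a, b)`, then `Φ(G, E₄, E₆)` is a modular form
of weight `w` on `Γ₀(p)` whose coset translates are the functions `polyFamily p G Φ c`. -/
theorem exists_form_polyFamily (p : ℕ) [NeZero p] (G : ModularForm (Γ0 p) 2) (w : ℕ)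
    (Φ : MvPolynomial (Fin 3) ℂ)
    (hΦ : ∀ d x a b : ℂ, MvPolynomial.aeval ![d ^ 2 * x, d ^ 4 * a, d ^ 6 * b] Φ =
      d ^ w * MvPolynomial.aeval ![x, a, b] Φ) :
    ∃ Ψ : ModularForm (Γ0 p) (w : ℤ), ∀ c : X p, cosetFun Ψ c = polyFamily p G Φ c := by
  refine exists_modularForm_of_family (k := (w : ℤ)) (polyFamily p G Φ)
    (fun c => (isNice_polyFamily p G Φ c).holo) ?_ (fun c => (isNice_polyFamily p G Φ c).bdd)
  intro g c τ
  rw [polyFamily_apply, polyFamily_apply, zpow_natCast, ← hΦ]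
  have h2 : cosetFun G c (g • τ) = denom g τ ^ 2 * cosetFun G (g⁻¹ • c) τ := by
    have h := cosetFun_smul_apply G g c τ
    simpa only [zpow_ofNat] using h
  have h4 : E₄ (g • τ) = denom g τ ^ 4 * E₄ τ := by
    have h := levelOne_smul_apply E₄ g τ
    simpa only [zpow_ofNat] using h
  have h6 : E₆ (g • τ) = denom g τ ^ 6 * E₆ τ := by
    have h := levelOne_smul_apply E₆ g τ
    simpa only [zpow_ofNat] using h
  rw [h2, h4, h6]

end Fermat.Agent.S16.H37
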